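import Mathlib
import Fermat.Prelude.Def_ModularCurve_ArithmeticGalois
import Fermat.Prelude.Def_FLTPrelim_Ramification

/-!
# S17, piece W-KUM (helper857): weak Mordell–Weil from its inputs

The Kummer/pigeonhole argument, pure algebra + infinite Galois theory.

* `finiteIndex_of_pigeonhole` : a subgroup `H` of `A` such that some map `f : A → Φ` into a finite
  type satisfies `f a = f b → a - b ∈ H` has finite index.
* `weakMW_abstract` : for any `G_ℚ`-module `J` with finite `n`-torsion, `n`-divisible, all of whose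
  elements have open stabiliser, and such that the `n`-division points of the fixed points are
  unramified outside a finite set `S`, Hermite–Minkowski (as a hypothesis) implies that
  `n • J^G` has finite index in `J^G`.
* `weakMW_of` : the skeleton statement `Skel.weakMW_of` (definitions `WeakMW`, `MW`, `UnramifiedAt`
  unfolded).
-/

set_option autoImplicit false

noncomputable section

namespace Fermat.Agent.S17.H857

open ModularCurve AlgebraicCurve

/-- Pigeonhole: if `f : A → Φ`, `Φ` finite, separates the cosets of `H`, then `H` has finite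
index. -/
theorem finiteIndex_of_pigeonhole {A : Type*} [AddCommGroup A] (H : AddSubgroup A) {Φ : Type*}
    [Finite Φ] (f : A → Φ) (hf : ∀ a b : A, f a = f b → a - b ∈ H) : H.FiniteIndex := by
  haveI : Finite (A ⧸ H) := by
    refine Finite.of_injective (fun q : A ⧸ H => f q.out) ?_
    intro q q' hqq'
    have h := hf _ _ hqq'
    have h1 : (QuotientAddGroup.mk q.out : A ⧸ H) = QuotientAddGroup.mk q'.out := by
      rw [QuotientAddGroup.eq]
      have : -q.out + q'.out = -(q.out - q'.out) := by abel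
      rw [this]
      exact H.neg_mem h
    simpa using h1
  exact AddSubgroup.finiteIndex_of_finite_quotient

/-- `ℚ̄` -/
abbrev Qb : Type := AlgebraicClosure ℚ

/-- the absolute Galois group of `ℚ` -/
abbrev GQ : Type := Qb ≃ₐ[ℚ] Qb

theorem isGalois_Qb : IsGalois ℚ Qb := by
  haveI : Algebra.IsAlgebraic ℚ (AlgebraicClosure ℚ) := AlgebraicClosure.isAlgebraic ℚ
  haveI : IsAlgClosure ℚ (AlgebraicClosure ℚ) := ⟨inferInstance, inferInstance⟩
  exact IsAlgClosure.isGalois ℚ Qb

section Abstract

variable {J : Type*} [AddCommGroup J] [DistribMulAction GQ J]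

/-- The stabiliser of an element with open stabiliser is the fixing subgroup of its fixed field. -/
theorem fixingSubgroup_fixedField_stabilizer (y : J)
    (hstab : ∃ K : IntermediateField ℚ Qb, FiniteDimensional ℚ K ∧
      ∀ σ : GQ, (∀ a ∈ K, σ a = a) → σ • y = y) :
    (IntermediateField.fixedField (MulAction.stabilizer GQ y)).fixingSubgroup =
      MulAction.stabilizer GQ y := by
  haveI := isGalois_Qb
  obtain ⟨K, hK, hKy⟩ := hstab
  have hle : K.fixingSubgroup ≤ MulAction.stabilizer GQ y := by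
    intro σ hσ
    rw [MulAction.mem_stabilizer_iff]
    exact hKy σ ((IntermediateField.mem_fixingSubgroup_iff K σ).mp hσ)
  have hopen : IsOpen (MulAction.stabilizer GQ y : Set GQ) :=
    Subgroup.isOpen_mono hle K.fixingSubgroup_isOpen
  have hclosed : IsClosed (MulAction.stabilizer GQ y : Set GQ) :=
    Subgroup.isClosed_of_isOpen _ hopen
  exact InfiniteGalois.fixingSubgroup_fixedField
    (⟨MulAction.stabilizer GQ y, hclosed⟩ : ClosedSubgroup GQ)

/-- The fixed field of the stabiliser is a number field. -/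
theorem finiteDimensional_fixedField_stabilizer (y : J)
    (hstab : ∃ K : IntermediateField ℚ Qb, FiniteDimensional ℚ K ∧
      ∀ σ : GQ, (∀ a ∈ K, σ a = a) → σ • y = y) :
    FiniteDimensional ℚ (IntermediateField.fixedField (MulAction.stabilizer GQ y)) := by
  haveI := isGalois_Qb
  obtain ⟨K, hK, hKy⟩ := hstab
  have hle : K.fixingSubgroup ≤ MulAction.stabilizer GQ y := by
    intro σ hσ
    rw [MulAction.mem_stabilizer_iff]
    exact hKy σ ((IntermediateField.mem_fixingSubgroup_iff K σ).mp hσ)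
  have hKK : IntermediateField.fixedField (MulAction.stabilizer GQ y) ≤ K := by
    have h1 := IntermediateField.fixedField_antitone hle
    rwa [InfiniteGalois.fixedField_fixingSubgroup] at h1
  exact Module.Finite.of_injective (IntermediateField.inclusion hKK).toLinearMap
    (IntermediateField.inclusion hKK).injective

/-- Weak Mordell–Weil, abstract form. -/
theorem weakMW_abstract (n : ℕ)
    (hstab : ∀ x : J, ∃ K : IntermediateField ℚ Qb, FiniteDimensional ℚ K ∧
      ∀ σ : GQ, (∀ a ∈ K, σ a = a) → σ • x = x)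
    (T : AddSubgroup J) (hT : ∀ x : J, x ∈ T ↔ n • x = 0) [Finite T]
    (hdiv : ∀ x : J, ∃ y : J, n • y = x)
    (S : Finset ℕ)
    (hunr : ∀ ℓ : ℕ, ℓ.Prime → ℓ ∉ S → ∀ A : ValuationSubring Qb, A.LiesOverPrime ℓ →
      ∀ σ ∈ A.inertiaSubgroupIn ℚ, ∀ y : J, n • y ∈ FixedPoints.addSubgroup GQ J → σ • y = y)
    (hHM : ∀ d : ℕ, {K : IntermediateField ℚ Qb | FiniteDimensional ℚ K ∧
      Module.finrank ℚ K ≤ d ∧ ∀ ℓ : ℕ, ℓ.Prime → ℓ ∉ S →
        ∀ A : ValuationSubring Qb, A.LiesOverPrime ℓ → ∀ σ ∈ A.inertiaSubgroupIn ℚ,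
          ∀ a ∈ K, σ a = a}.Finite) :
    (nsmulAddMonoidHom n :
      FixedPoints.addSubgroup GQ J →+ FixedPoints.addSubgroup GQ J).range.FiniteIndex := by
  classical
  haveI := isGalois_Qb
  have hfin := hHM (Nat.card T)
  set HM : Set (IntermediateField ℚ Qb) := {K : IntermediateField ℚ Qb | FiniteDimensional ℚ K ∧
      Module.finrank ℚ K ≤ Nat.card T ∧ ∀ ℓ : ℕ, ℓ.Prime → ℓ ∉ S →
        ∀ A : ValuationSubring Qb, A.LiesOverPrime ℓ → ∀ σ ∈ A.inertiaSubgroupIn ℚ,
          ∀ a ∈ K, σ a = a} with hHMdef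
  -- the compositum of the Hermite–Minkowski set
  set M : IntermediateField ℚ Qb := ⨆ K ∈ hfin.toFinset, K with hM
  haveI hMfd : FiniteDimensional ℚ M :=
    IntermediateField.finiteDimensional_iSup_of_finset'
      (fun K hK => (hfin.mem_toFinset.mp hK).1)
  -- torsion differences
  have htorsdiff : ∀ y : J, n • y ∈ FixedPoints.addSubgroup GQ J → ∀ σ : GQ,
      σ • y - y ∈ T := by
    intro y hy σ
    rw [hT, smul_sub, ← smul_comm σ n y, (FixedPoints.mem_addSubgroup GQ J _).mp hy σ, sub_self]
  -- every `n`-division point of a fixed point is fixed by `Gal(ℚ̄/M)`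
  have key : ∀ y : J, n • y ∈ FixedPoints.addSubgroup GQ J → ∀ σ : GQ,
      σ ∈ M.fixingSubgroup → σ • y = y := by
    intro y hy σ hσ
    have hfix := fixingSubgroup_fixedField_stabilizer y (hstab y)
    have hKy_mem : IntermediateField.fixedField (MulAction.stabilizer GQ y) ∈ HM := by
      refine ⟨finiteDimensional_fixedField_stabilizer y (hstab y), ?_, ?_⟩
      · rw [IntermediateField.finrank_eq_fixingSubgroup_index Qb, hfix,
          MulAction.index_stabilizer, ← Nat.card_coe_set_eq]
        refine Nat.card_le_card_of_injective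
          (fun z : MulAction.orbit GQ y => (⟨(z : J) - y, ?_⟩ : T)) ?_
        · obtain ⟨σ', hσ'⟩ := z.2
          rw [← hσ']
          exact htorsdiff y hy σ'
        · intro z z' hzz'
          have := congrArg (fun w : T => (w : J)) hzz'
          simp only [sub_left_inj] at this
          exact Subtype.ext this
      · intro ℓ hℓ hℓS A hA τ hτ a ha
        have hτy : τ • y = y := hunr ℓ hℓ hℓS A hA τ hτ y hy
        exact (IntermediateField.mem_fixedField_iff _ a).mp ha τ
          (MulAction.mem_stabilizer_iff.mpr hτy)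
    have hKyM : IntermediateField.fixedField (MulAction.stabilizer GQ y) ≤ M :=
      le_iSup₂_of_le (f := fun K (_ : K ∈ hfin.toFinset) => K) _
        (hfin.mem_toFinset.mpr hKy_mem) le_rfl
    have h1 : σ ∈ (IntermediateField.fixedField (MulAction.stabilizer GQ y)).fixingSubgroup :=
      IntermediateField.fixingSubgroup_antitone hKyM hσ
    rw [hfix] at h1
    exact MulAction.mem_stabilizer_iff.mp h1
  -- restriction to `M`
  haveI : Finite (M →ₐ[ℚ] Qb) := inferInstance
  let res : GQ → (M →ₐ[ℚ] Qb) := fun σ => (σ : Qb →ₐ[ℚ] Qb).comp M.val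
  have hres : ∀ σ τ : GQ, res σ = res τ → σ⁻¹ * τ ∈ M.fixingSubgroup := by
    intro σ τ h
    rw [IntermediateField.mem_fixingSubgroup_iff]
    intro a ha
    have := congrArg (fun e : M →ₐ[ℚ] Qb => e ⟨a, ha⟩) h
    change σ a = τ a at this
    rw [AlgEquiv.mul_apply, ← this]
    exact σ.symm_apply_apply a
  have hsame : ∀ y : J, n • y ∈ FixedPoints.addSubgroup GQ J → ∀ σ τ : GQ, res σ = res τ →
      σ • y = τ • y := by
    intro y hy σ τ h
    have := key y hy _ (hres σ τ h)
    rw [mul_smul, inv_smul_eq_iff] at this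
    exact this.symm
  choose ydiv hydiv using hdiv
  have hyMW : ∀ x : FixedPoints.addSubgroup GQ J,
      n • ydiv (x : J) ∈ FixedPoints.addSubgroup GQ J := by
    intro x
    rw [hydiv]
    exact x.2
  let f : FixedPoints.addSubgroup GQ J → ((M →ₐ[ℚ] Qb) → T) := fun x e =>
    if h : ∃ σ : GQ, res σ = e then
      ⟨h.choose • ydiv (x : J) - ydiv (x : J), htorsdiff _ (hyMW x) _⟩
    else 0
  refine finiteIndex_of_pigeonhole _ f ?_
  intro x x' hxx'
  have hz : ydiv (x : J) - ydiv (x' : J) ∈ FixedPoints.addSubgroup GQ J := by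
    rw [FixedPoints.mem_addSubgroup]
    intro σ
    have hex : ∃ σ' : GQ, res σ' = res σ := ⟨σ, rfl⟩
    have h1 := congrFun hxx' (res σ)
    simp only [f, dif_pos hex] at h1
    have h2 := congrArg (fun w : T => (w : J)) h1
    simp only at h2
    rw [hsame _ (hyMW x) _ _ hex.choose_spec, hsame _ (hyMW x') _ _ hex.choose_spec] at h2
    rw [smul_sub]
    exact sub_eq_sub_iff_sub_eq_sub.mp h2
  refine ⟨⟨_, hz⟩, ?_⟩
  apply Subtype.ext
  simp only [nsmulAddMonoidHom_apply, AddSubgroup.coe_nsmul, AddSubgroup.coe_sub, smul_sub, hydiv]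

end Abstract

/-- **W-KUM** (skeleton statement `Skel.weakMW_of`, with `WeakMW`, `MW`, `UnramifiedAt`
unfolded). Weak Mordell–Weil for `J₀(N)` from its inputs. -/
theorem weakMW_of (N : ℕ) [NeZero N] (n : ℕ) (hn : n ≠ 0)
    (hstab : ∀ x : JZero N, ∃ K : IntermediateField ℚ Qb, FiniteDimensional ℚ K ∧
      ∀ σ : GQ, (∀ a ∈ K, σ a = a) → σ • x = x)
    (htors : Finite (Pic0.torsion Qb (modularFunctionFieldBar N) n))
    (hdiv : ∀ x : JZero N, ∃ y : JZero N, n • y = x)
    (S : Finset ℕ)
    (hunr : ∀ ℓ : ℕ, ℓ.Prime → ℓ ∉ S → ∀ A : ValuationSubring Qb, A.LiesOverPrime ℓ →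
      ∀ σ ∈ A.inertiaSubgroupIn ℚ, ∀ y : JZero N,
        n • y ∈ FixedPoints.addSubgroup GQ (JZero N) → σ • y = y)
    (hHM : ∀ d : ℕ, {K : IntermediateField ℚ Qb | FiniteDimensional ℚ K ∧
      Module.finrank ℚ K ≤ d ∧ ∀ ℓ : ℕ, ℓ.Prime → ℓ ∉ S →
        ∀ A : ValuationSubring Qb, A.LiesOverPrime ℓ → ∀ σ ∈ A.inertiaSubgroupIn ℚ,
          ∀ a ∈ K, σ a = a}.Finite) :
    (nsmulAddMonoidHom n : FixedPoints.addSubgroup GQ (JZero N) →+
      FixedPoints.addSubgroup GQ (JZero N)).range.FiniteIndex := by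
  haveI := htors
  refine weakMW_abstract (J := JZero N) n hstab (Pic0.torsion Qb (modularFunctionFieldBar N) n)
    (fun x => ?_) hdiv S hunr hHM
  rw [Pic0.mem_torsion, natCast_zsmul]

end Fermat.Agent.S17.H857
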